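import Fermat.Agent.Jacobian.PatchedModule.Fibre
import Mathlib.RingTheory.LocalRing.ResidueField.Ideal
import Mathlib.RingTheory.Flat.Basic

/-!
# The acyclic locus and base change
-/

set_option autoImplicit false

noncomputable section

open TensorProduct

namespace Fermat.Agent.Jacobian.PatchedModule

universe u

section field

variable {K M₀ M₁ M₀₁ : Type*} [Field K] [AddCommGroup M₀] [Module K M₀] [AddCommGroup M₁]
  [Module K M₁] [AddCommGroup M₀₁] [Module K M₀₁] (P : PatchedModule K M₀ M₁ M₀₁)

/-- Over a field acyclicity does not see field extensions. -/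
theorem bijective_baseChange_field_iff (L : Type*) [Field L] [Algebra K L] :
    Function.Bijective (P.baseChange L).d ↔ Function.Bijective P.d := by
  have hs : Function.Surjective (P.baseChange L).d ↔ Function.Surjective P.d := by
    refine ⟨fun h => ?_, P.surjective_baseChange_d L⟩
    have := P.finiteDimensional_H1
    rw [surjective_baseChange_d_iff_subsingleton] at h
    have h0 : Module.finrank K P.H1 = 0 := by
      rw [← Module.finrank_baseChange (R := L)]
      exact Module.finrank_zero_of_subsingleton
    rw [← LinearMap.range_eq_top, ← Submodule.Quotient.subsingleton_iff]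
    exact Module.finrank_zero_iff.mp h0
  refine ⟨fun h => bijective_of_chi_eq_zero P ?_ (hs.mp h.2),
    fun h => bijective_of_chi_eq_zero _ ?_ (hs.mpr h.2)⟩
  · rw [← chi_baseChange P L]; exact chi_eq_zero_of_bijective _ h
  · rw [chi_baseChange P L]; exact chi_eq_zero_of_bijective _ h

end field

section ring

variable {R M₀ M₁ M₀₁ : Type*} [CommRing R] [AddCommGroup M₀] [Module R M₀] [AddCommGroup M₁]
  [Module R M₁] [AddCommGroup M₀₁] [Module R M₀₁] (P : PatchedModule R M₀ M₁ M₀₁)
  (S : Type*) [CommRing S] [Algebra R S]

/-- Acyclicity is preserved by base change. -/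
theorem bijective_baseChange_d (h : Function.Bijective P.d) :
    Function.Bijective (P.baseChange S).d := by
  refine ⟨LinearMap.ker_eq_bot.mp ?_, P.surjective_baseChange_d S h.2⟩
  have hb := P.bijective_baseChangeH0_of_surjective S h.2
  have h0 : Subsingleton P.H0 :=
    Submodule.subsingleton_iff_eq_bot.mpr (LinearMap.ker_eq_bot.mpr h.1)
  rw [← Submodule.subsingleton_iff_eq_bot]
  exact hb.2.subsingleton

/-- The base change is acyclic iff all points land in the acyclic locus. -/
theorem bijective_baseChange_d_iff :
    Function.Bijective (P.baseChange S).d ↔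
      ∀ q : PrimeSpectrum S, P.AcyclicAt (PrimeSpectrum.comap (algebraMap R S) q) := by
  have key : ∀ q : PrimeSpectrum S, (P.baseChange S).AcyclicAt q ↔
      P.AcyclicAt (PrimeSpectrum.comap (algebraMap R S) q) := by
    intro q
    letI : Algebra R q.asIdeal.ResidueField :=
      ((algebraMap S q.asIdeal.ResidueField).comp (algebraMap R S)).toAlgebra
    have : IsScalarTower R S q.asIdeal.ResidueField := IsScalarTower.of_algebraMap_eq fun _ => rfl
    set p := PrimeSpectrum.comap (algebraMap R S) q with hp
    let ι : p.asIdeal.ResidueField →+* q.asIdeal.ResidueField :=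
      Ideal.ResidueField.map p.asIdeal q.asIdeal (algebraMap R S) rfl
    letI : Algebra p.asIdeal.ResidueField q.asIdeal.ResidueField := ι.toAlgebra
    have : IsScalarTower R p.asIdeal.ResidueField q.asIdeal.ResidueField :=
      IsScalarTower.of_algebraMap_eq fun r => by
        exact (Ideal.ResidueField.map_algebraMap _ _ _ rfl r).symm
    unfold AcyclicAt
    rw [P.bijective_baseChange_baseChange_iff S q.asIdeal.ResidueField,
      ← P.bijective_baseChange_baseChange_iff p.asIdeal.ResidueField q.asIdeal.ResidueField,
      (P.baseChange p.asIdeal.ResidueField).bijective_baseChange_field_iff q.asIdeal.ResidueField]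
  refine ⟨fun h q => (key q).mp (bijective_baseChange_d _ _ h), fun h => ?_⟩
  exact bijective_of_forall_acyclicAt _ fun q => (key q).mpr (h q)

end ring

end Fermat.Agent.Jacobian.PatchedModule
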