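import Fermat.Agent.Jacobian.PatchedModule.Basic
import Mathlib.LinearAlgebra.DirectSum.Finsupp
import Mathlib.LinearAlgebra.TensorProduct.Prod
import Mathlib.LinearAlgebra.TensorProduct.RightExactness
import Mathlib.RingTheory.Flat.Basic

/-!
# Base change of patched modules

`H¹` commutes with every base change; so does `H⁰` when `H¹ = 0` or the base change is flat.
-/

set_option autoImplicit false

noncomputable section

open TensorProduct

namespace Fermat.Agent.Jacobian

variable {R : Type*} [CommRing R] (S : Type*) [CommRing S] [Algebra R S]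

/-- Base change of a frame. -/
def Frame.baseChange {M : Type*} [AddCommGroup M] [Module R M] {x : M →ₗ[R] M} (F : Frame x) :
    Frame (x.baseChange S) :=
  let e : S ⊗[R] (Fin F.n × ℕ →₀ R) ≃ₗ[S] (Fin F.n × ℕ →₀ S) :=
    TensorProduct.finsuppScalarRight R S S (Fin F.n × ℕ)
  have he : ∀ f, e ((shiftLin R F.n).baseChange S f) = shiftLin S F.n (e f) := fun f => by
    induction f using TensorProduct.induction_on with
    | zero => simp
    | add a b ha hb => simp only [map_add, ha, hb]
    | tmul s f =>
      induction f using Finsupp.induction_linear with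
      | zero => simp
      | add a b ha hb => simp only [TensorProduct.tmul_add, map_add, ha, hb]
      | single a c =>
        simp [e, shiftLin, TensorProduct.finsuppScalarRight_apply_tmul, Finsupp.mapDomain_single,
          Finsupp.sum_single_index]
  { n := F.n
    j := e.toLinearMap ∘ₗ F.j.baseChange S
    p := F.p.baseChange S ∘ₗ e.symm.toLinearMap
    p_j := fun m => by
      simp only [LinearMap.comp_apply, LinearEquiv.coe_coe, LinearEquiv.symm_apply_apply]
      rw [← LinearMap.comp_apply, ← LinearMap.baseChange_comp,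
        show F.p ∘ₗ F.j = LinearMap.id from LinearMap.ext F.p_j, LinearMap.baseChange_id]
      rfl
    j_x := fun m => by
      simp only [LinearMap.comp_apply, LinearEquiv.coe_coe]
      rw [← he, ← LinearMap.comp_apply, ← LinearMap.baseChange_comp,
        show F.j ∘ₗ x = shiftLin R F.n ∘ₗ F.j from LinearMap.ext F.j_x, LinearMap.baseChange_comp]
      rfl
    p_shift := fun f => by
      simp only [LinearMap.comp_apply, LinearEquiv.coe_coe]
      obtain ⟨g, rfl⟩ := e.surjective f
      rw [← he, LinearEquiv.symm_apply_apply, LinearEquiv.symm_apply_apply,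
        ← LinearMap.comp_apply, ← LinearMap.baseChange_comp,
        show F.p ∘ₗ shiftLin R F.n = x ∘ₗ F.p from LinearMap.ext F.p_shift,
        LinearMap.baseChange_comp]
      rfl }

variable {M₀ M₁ M₀₁ : Type*} [AddCommGroup M₀] [Module R M₀] [AddCommGroup M₁] [Module R M₁]
  [AddCommGroup M₀₁] [Module R M₀₁]

namespace PatchedModule

lemma exhaust_baseChange {M : Type*} [AddCommGroup M] [Module R M] {r : M →ₗ[R] M₀₁}
    {x : M →ₗ[R] M} {X : M₀₁ ≃ₗ[R] M₀₁} (hx : ∀ m, r (x m) = X (r m))
    (h : ∀ v, ∃ n : ℕ, (X ^ n) v ∈ LinearMap.range r) (z : S ⊗[R] M₀₁) :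
    ∃ n : ℕ, ((X.baseChange R S) ^ n) z ∈ LinearMap.range (r.baseChange S) := by
  have hpow : ∀ (n : ℕ) (s : S) (v : M₀₁),
      ((X.baseChange R S) ^ n) (s ⊗ₜ v) = s ⊗ₜ (X ^ n) v := by
    intro n
    induction n with
    | zero => simp
    | succ n ih =>
      intro s v
      rw [pow_succ', pow_succ', LinearEquiv.mul_apply, LinearEquiv.mul_apply, ih]
      simp
  have step : ∀ (n : ℕ) (w : S ⊗[R] M₀₁), w ∈ LinearMap.range (r.baseChange S) →
      ((X.baseChange R S) ^ n) w ∈ LinearMap.range (r.baseChange S) := by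
    intro n
    induction n with
    | zero => simp
    | succ n ih =>
      intro w hw
      rw [pow_succ', LinearEquiv.mul_apply]
      obtain ⟨u, hu⟩ := ih w hw
      refine ⟨x.baseChange S u, ?_⟩
      rw [← hu, ← LinearMap.comp_apply, ← LinearMap.baseChange_comp,
        show r ∘ₗ x = (X : M₀₁ →ₗ[R] M₀₁) ∘ₗ r from LinearMap.ext hx, LinearMap.baseChange_comp]
      rfl
  induction z using TensorProduct.induction_on with
  | zero => exact ⟨0, by simp⟩
  | tmul s v =>
    obtain ⟨n, m, hm⟩ := h v
    exact ⟨n, s ⊗ₜ m, by rw [hpow, ← hm]; simp⟩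
  | add a b ha hb =>
    obtain ⟨n, hn⟩ := ha
    obtain ⟨k, hk⟩ := hb
    refine ⟨k + n, ?_⟩
    rw [map_add]
    refine add_mem ?_ ?_
    · rw [pow_add, LinearEquiv.mul_apply]; exact step k _ hn
    · rw [add_comm k n, pow_add, LinearEquiv.mul_apply]; exact step n _ hk

variable (P : PatchedModule R M₀ M₁ M₀₁)

/-- Base change. -/
def baseChange : PatchedModule S (S ⊗[R] M₀) (S ⊗[R] M₁) (S ⊗[R] M₀₁) where
  x := P.x.baseChange S
  y := P.y.baseChange S
  X := P.X.baseChange R S
  r₀ := P.r₀.baseChange S
  r₁ := P.r₁.baseChange S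
  r₀_x m := by
    rw [← LinearMap.comp_apply, ← LinearMap.baseChange_comp,
      show P.r₀ ∘ₗ P.x = (P.X : M₀₁ →ₗ[R] M₀₁) ∘ₗ P.r₀ from LinearMap.ext P.r₀_x,
      LinearMap.baseChange_comp]
    rfl
  r₁_y m := by
    rw [← LinearMap.comp_apply, ← LinearMap.baseChange_comp,
      show P.r₁ ∘ₗ P.y = (P.X.symm : M₀₁ →ₗ[R] M₀₁) ∘ₗ P.r₁ from LinearMap.ext P.r₁_y,
      LinearMap.baseChange_comp]
    rfl
  injective_r₀ := Function.LeftInverse.injective (g := P.leftInv₀.baseChange S) fun m => by
    rw [← LinearMap.comp_apply, ← LinearMap.baseChange_comp,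
      show P.leftInv₀ ∘ₗ P.r₀ = LinearMap.id from LinearMap.ext P.leftInv₀_r₀,
      LinearMap.baseChange_id]
    rfl
  injective_r₁ := Function.LeftInverse.injective (g := P.leftInv₁.baseChange S) fun m => by
    rw [← LinearMap.comp_apply, ← LinearMap.baseChange_comp,
      show P.leftInv₁ ∘ₗ P.r₁ = LinearMap.id from LinearMap.ext P.leftInv₁_r₁,
      LinearMap.baseChange_id]
    rfl
  exhaust₀ := exhaust_baseChange S P.r₀_x P.exhaust₀
  exhaust₁ := exhaust_baseChange S P.r₁_y P.exhaust₁
  frame₀ := P.frame₀.baseChange S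
  frame₁ := P.frame₁.baseChange S

/-- The identification of the sources. -/
def prodEquiv : S ⊗[R] (M₀ × M₁) ≃ₗ[S] (S ⊗[R] M₀) × (S ⊗[R] M₁) :=
  TensorProduct.prodRight R S S M₀ M₁

lemma baseChange_d_prodEquiv (z : S ⊗[R] (M₀ × M₁)) :
    (P.baseChange S).d (prodEquiv S z) = P.d.baseChange S z := by
  induction z using TensorProduct.induction_on with
  | zero => simp
  | add a b ha hb => simp only [map_add, ha, hb]
  | tmul s m =>
    rw [d_apply]
    simp [prodEquiv, baseChange, d_apply, TensorProduct.tmul_sub]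

lemma range_baseChange_d :
    LinearMap.range (P.baseChange S).d = LinearMap.range (P.d.baseChange S) := by
  ext v
  constructor
  · rintro ⟨z, rfl⟩
    exact ⟨(prodEquiv S).symm z, by rw [← baseChange_d_prodEquiv, LinearEquiv.apply_symm_apply]⟩
  · rintro ⟨z, rfl⟩
    exact ⟨prodEquiv S z, baseChange_d_prodEquiv S P z⟩

lemma surjective_baseChange_d_iff :
    Function.Surjective (P.baseChange S).d ↔ Function.Surjective (P.d.baseChange S) := by
  rw [← LinearMap.range_eq_top, ← LinearMap.range_eq_top, range_baseChange_d]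

lemma surjective_baseChange_d (h : Function.Surjective P.d) :
    Function.Surjective (P.baseChange S).d :=
  (P.surjective_baseChange_d_iff S).mpr (LinearMap.lTensor_surjective S h)

/-- `H¹` commutes with base change. -/
def baseChangeH1Equiv : (P.baseChange S).H1 ≃ₗ[S] S ⊗[R] P.H1 :=
  LinearEquiv.ofBijective
    ((LinearMap.range (P.baseChange S).d).liftQ ((LinearMap.range P.d).mkQ.baseChange S) (by
      rw [range_baseChange_d]
      rintro _ ⟨z, rfl⟩
      rw [LinearMap.mem_ker, ← LinearMap.comp_apply, ← LinearMap.baseChange_comp,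
        LinearMap.range_mkQ_comp, LinearMap.baseChange_zero]
      rfl))
    ⟨by
      rw [← LinearMap.ker_eq_bot, Submodule.ker_liftQ, eq_bot_iff, Submodule.map_le_iff_le_comap,
        Submodule.comap_bot, Submodule.ker_mkQ, range_baseChange_d]
      intro v hv
      exact ((lTensor_exact S (LinearMap.exact_map_mkQ_range P.d)
        (Submodule.mkQ_surjective _)) v).mp hv, by
      rw [← LinearMap.range_eq_top, Submodule.range_liftQ, LinearMap.range_eq_top]
      exact LinearMap.lTensor_surjective S (Submodule.mkQ_surjective _)⟩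

/-- `H¹` of a base change vanishes iff `S ⊗ H¹ = 0`. -/
lemma surjective_baseChange_d_iff_subsingleton :
    Function.Surjective (P.baseChange S).d ↔ Subsingleton (S ⊗[R] P.H1) := by
  rw [← (P.baseChangeH1Equiv S).toEquiv.subsingleton_congr, Submodule.Quotient.subsingleton_iff,
    LinearMap.range_eq_top]

/-- The comparison map on `H⁰`. -/
def baseChangeH0 : S ⊗[R] P.H0 →ₗ[S] (P.baseChange S).H0 :=
  ((prodEquiv S).toLinearMap ∘ₗ P.H0.subtype.baseChange S).codRestrict _ fun z => by
    rw [LinearMap.mem_ker, LinearMap.comp_apply, LinearEquiv.coe_coe, baseChange_d_prodEquiv,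
      ← LinearMap.comp_apply, ← LinearMap.baseChange_comp, LinearMap.comp_ker_subtype,
      LinearMap.baseChange_zero]
    rfl

lemma bijective_baseChangeH0 (hinj : Function.Injective (P.H0.subtype.baseChange S))
    (hex : Function.Exact (P.H0.subtype.baseChange S) (P.d.baseChange S)) :
    Function.Bijective (P.baseChangeH0 S) := by
  refine ⟨fun a b h => hinj ((prodEquiv S).injective (congrArg Subtype.val h)), fun z => ?_⟩
  obtain ⟨w, hw⟩ := (prodEquiv S).surjective z.1
  have h0 : P.d.baseChange S w = 0 := by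
    rw [← baseChange_d_prodEquiv, hw]
    exact z.2
  obtain ⟨u, hu⟩ := (hex w).mp h0
  exact ⟨u, Subtype.ext (by rw [← hw, ← hu]; rfl)⟩

/-- `H⁰` commutes with base change when `H¹ = 0`. -/
theorem bijective_baseChangeH0_of_surjective (h : Function.Surjective P.d) :
    Function.Bijective (P.baseChangeH0 S) := by
  obtain ⟨ρ, hρ⟩ := P.exists_retraction_H0 h
  refine P.bijective_baseChangeH0 S ?_ (lTensor_exact S (LinearMap.exact_subtype_ker_map P.d) h)
  refine Function.LeftInverse.injective (g := ρ.baseChange S) fun z => ?_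
  rw [← LinearMap.comp_apply, ← LinearMap.baseChange_comp,
    show ρ ∘ₗ P.H0.subtype = LinearMap.id from LinearMap.ext hρ, LinearMap.baseChange_id]
  rfl

/-- `H⁰` commutes with flat base change. -/
theorem bijective_baseChangeH0_of_flat [Module.Flat R S] :
    Function.Bijective (P.baseChangeH0 S) :=
  P.bijective_baseChangeH0 S
    (Module.Flat.lTensor_preserves_injective_linearMap _ (Submodule.injective_subtype _))
    (Module.Flat.lTensor_exact S (LinearMap.exact_subtype_ker_map P.d))

end PatchedModule

end Fermat.Agent.Jacobian
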