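import Fermat.Agent.Jacobian.PatchedModule.Twist
import Fermat.Agent.Jacobian.PatchedModule.BaseChange
import Mathlib.Algebra.Module.LinearMap.Index
import Mathlib.RingTheory.Spectrum.Prime.FreeLocus
import Mathlib.RingTheory.Spectrum.Prime.Module
import Mathlib.RingTheory.LocalRing.Module

/-!
# Fibres of patched modules

Over a field `H⁰`, `H¹` are finite-dimensional; the Euler characteristic is the index of `r₀ - r₁`.
Over a ring it is locally constant on the spectrum, and the locus where the fibre complex is
bijective is open.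
-/

set_option autoImplicit false

noncomputable section

open TensorProduct

namespace Fermat.Agent.Jacobian

namespace PatchedModule

section field

variable {k M₀ M₁ M₀₁ : Type*} [Field k] [AddCommGroup M₀] [Module k M₀] [AddCommGroup M₁]
  [Module k M₁] [AddCommGroup M₀₁] [Module k M₀₁] (P : PatchedModule k M₀ M₁ M₀₁)

theorem finiteDimensional_H1 : FiniteDimensional k P.H1 := P.finite_H1

theorem finiteDimensional_H0 : FiniteDimensional k P.H0 := by
  obtain ⟨L, hL, hle⟩ := P.exists_fg_H0_le
  have : Module.Finite k L := Module.Finite.iff_fg.mpr hL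
  exact Submodule.finiteDimensional_of_le hle

/-- The Euler characteristic `dim H⁰ - dim H¹`. -/
def chi : ℤ := P.d.index

lemma chi_eq : P.chi = (Module.finrank k P.H0 : ℤ) - Module.finrank k P.H1 :=
  LinearMap.index_eq_finrank_sub

lemma chi_eq_zero_of_bijective (h : Function.Bijective P.d) : P.chi = 0 := by
  rw [chi, LinearMap.index_of_surjective h.2, LinearMap.ker_eq_bot.mpr h.1]
  simp

lemma bijective_of_chi_eq_zero (h : P.chi = 0) (hs : Function.Surjective P.d) :
    Function.Bijective P.d := by
  rw [chi, LinearMap.index_of_surjective hs, Nat.cast_eq_zero] at h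
  have := P.finiteDimensional_H0
  exact ⟨LinearMap.ker_eq_bot.mp (Submodule.finrank_eq_zero.mp h), hs⟩

/-- A base change of patched modules with finite-codimensional injective maps on the pieces. -/
theorem chi_add_of_injective {N₀ N₁ N₀₁ : Type*} [AddCommGroup N₀] [Module k N₀] [AddCommGroup N₁]
    [Module k N₁] [AddCommGroup N₀₁] [Module k N₀₁] (Q : PatchedModule k N₀ N₁ N₀₁)
    (f₀ : M₀ →ₗ[k] N₀) (f₁ : M₁ →ₗ[k] N₁) (f : M₀₁ →ₗ[k] N₀₁)
    (h₀ : ∀ m, f (P.r₀ m) = Q.r₀ (f₀ m)) (h₁ : ∀ m, f (P.r₁ m) = Q.r₁ (f₁ m))
    (i₀ : Function.Injective f₀) (i₁ : Function.Injective f₁) (i : Function.Injective f)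
    [FiniteDimensional k (N₀ ⧸ LinearMap.range f₀)] [FiniteDimensional k (N₁ ⧸ LinearMap.range f₁)]
    [FiniteDimensional k (N₀₁ ⧸ LinearMap.range f)] :
    P.chi + (Module.finrank k (N₀ ⧸ LinearMap.range f₀) : ℤ) +
        Module.finrank k (N₁ ⧸ LinearMap.range f₁) =
      Q.chi + Module.finrank k (N₀₁ ⧸ LinearMap.range f) := by
  have := P.finiteDimensional_H0
  have := Q.finiteDimensional_H0
  have := P.finiteDimensional_H1
  have := Q.finiteDimensional_H1
  have hi : Function.Injective (f₀.prodMap f₁) := i₀.prodMap i₁
  let e : ((N₀ × N₁) ⧸ LinearMap.range (f₀.prodMap f₁)) ≃ₗ[k]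
      (N₀ ⧸ LinearMap.range f₀) × (N₁ ⧸ LinearMap.range f₁) :=
    (Submodule.quotEquivOfEq _ _ (by
        ext z
        simp only [LinearMap.mem_range, LinearMap.mem_ker, LinearMap.prodMap_apply,
          Submodule.mkQ_apply, Prod.mk_eq_zero, Submodule.Quotient.mk_eq_zero]
        constructor
        · rintro ⟨w, rfl⟩; exact ⟨⟨w.1, rfl⟩, ⟨w.2, rfl⟩⟩
        · rintro ⟨⟨a, ha⟩, ⟨b, hb⟩⟩; exact ⟨(a, b), Prod.ext ha hb⟩)).trans
      (((LinearMap.range f₀).mkQ.prodMap (LinearMap.range f₁).mkQ).quotKerEquivOfSurjective
        (Function.Surjective.prodMap (Submodule.mkQ_surjective _) (Submodule.mkQ_surjective _)))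
  have : FiniteDimensional k ((N₀ × N₁) ⧸ LinearMap.range (f₀.prodMap f₁)) :=
    Module.Finite.equiv e.symm
  have : FiniteDimensional k (LinearMap.ker (f₀.prodMap f₁)) := by
    rw [LinearMap.ker_eq_bot.mpr hi]; infer_instance
  have : FiniteDimensional k (LinearMap.ker f) := by
    rw [LinearMap.ker_eq_bot.mpr i]; infer_instance
  have key : f ∘ₗ P.d = Q.d ∘ₗ f₀.prodMap f₁ := LinearMap.ext fun z => by
    simp [d_apply, h₀, h₁]
  have := congrArg LinearMap.index key
  rw [LinearMap.index_comp, LinearMap.index_comp, LinearMap.index_of_injective i,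
    LinearMap.index_of_injective hi, e.finrank_eq, Module.finrank_prod] at this
  simp only [chi]
  push_cast at this
  linarith

end field

variable {R M₀ M₁ M₀₁ : Type*} [CommRing R] [AddCommGroup M₀] [Module R M₀] [AddCommGroup M₁]
  [Module R M₁] [AddCommGroup M₀₁] [Module R M₀₁] (P : PatchedModule R M₀ M₁ M₀₁)

/-- The Euler characteristic of a fibre. -/
def fibreChi (p : PrimeSpectrum R) : ℤ := (P.baseChange p.asIdeal.ResidueField).chi

/-- The fibre Euler characteristic, computed from a twist without `H¹`. -/
lemma fibreChi_eq {N : ℕ} (h : Function.Surjective (P.twist N).d) (p : PrimeSpectrum R) :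
    P.fibreChi p = (Module.rankAtStalk (R := R) (P.twist N).H0 p : ℤ) -
      Module.rankAtStalk (R := R) (M₁ ⧸ LinearMap.range (P.y ^ N)) p := by
  have := (P.twist N).projective_H0 h
  have := (P.twist N).finite_H0 h
  have := P.projective_quotient_pow N
  have := P.finite_quotient_pow N
  rw [Module.rankAtStalk_eq, Module.rankAtStalk_eq]
  let K := p.asIdeal.ResidueField
  set D := (P.twist N).baseChange K
  let g : (K ⊗[R] M₀) × (K ⊗[R] M₁) →ₗ[K] (K ⊗[R] M₀) × (K ⊗[R] M₁) :=
    LinearMap.id.prodMap ((P.y ^ N).baseChange K)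
  have hg : Function.Injective g := by
    refine Function.injective_id.prodMap ?_
    refine Function.LeftInverse.injective (g := (P.twistInv N).baseChange K) fun m => ?_
    show ((P.twistInv N).baseChange K ∘ₗ (P.y ^ N).baseChange K) m = m
    rw [← LinearMap.baseChange_comp,
      show P.twistInv N ∘ₗ P.y ^ N = LinearMap.id from LinearMap.ext (P.twistInv_pow N),
      LinearMap.baseChange_id]
    rfl
  let q : (K ⊗[R] M₀) × (K ⊗[R] M₁) →ₗ[K] K ⊗[R] (M₁ ⧸ LinearMap.range (P.y ^ N)) :=
    (LinearMap.range (P.y ^ N)).mkQ.baseChange K ∘ₗ LinearMap.snd K _ _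
  have hq : Function.Surjective q :=
    (LinearMap.lTensor_surjective K (Submodule.mkQ_surjective _)).comp Prod.snd_surjective
  have hex := lTensor_exact K (LinearMap.exact_map_mkQ_range (P.y ^ N))
    (Submodule.mkQ_surjective _)
  have hker : LinearMap.ker q = LinearMap.range g := by
    ext z
    constructor
    · intro hz
      obtain ⟨w, hw⟩ := (hex z.2).mp hz
      exact ⟨(z.1, w), Prod.ext rfl hw⟩
    · rintro ⟨w, rfl⟩
      exact (hex _).mpr ⟨w.2, rfl⟩
  let e := (Submodule.quotEquivOfEq _ _ hker.symm).trans (q.quotKerEquivOfSurjective hq)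
  have : FiniteDimensional K ((K ⊗[R] M₀ × K ⊗[R] M₁) ⧸ LinearMap.range g) :=
    Module.Finite.equiv e.symm
  have : FiniteDimensional K (LinearMap.ker g) := by
    rw [LinearMap.ker_eq_bot.mpr hg]; infer_instance
  have := D.finiteDimensional_H0
  have := D.finiteDimensional_H1
  have key : (P.baseChange K).d = D.d ∘ₗ g := by
    refine LinearMap.ext fun z => ?_
    obtain ⟨w, rfl⟩ := (prodEquiv K).surjective z
    have hw : g (prodEquiv K w) = prodEquiv K ((P.twistMap N).baseChange K w) := by
      induction w using TensorProduct.induction_on with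
      | zero => simp
      | add a b ha hb => simp only [map_add, ha, hb]
      | tmul s m => simp [g, prodEquiv, twistMap]
    rw [LinearMap.comp_apply, hw, baseChange_d_prodEquiv, baseChange_d_prodEquiv,
      ← LinearMap.comp_apply, ← LinearMap.baseChange_comp, twist_d_comp]
  have hD := (P.twist N).surjective_baseChange_d K h
  show (P.baseChange K).d.index = _
  rw [key, LinearMap.index_comp, LinearMap.index_of_surjective hD, LinearMap.index_of_injective hg,
    e.finrank_eq,
    ← (LinearEquiv.ofBijective _ ((P.twist N).bijective_baseChangeH0_of_surjective K h)).finrank_eq]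
  rfl

/-- The Euler characteristic is locally constant. -/
theorem isLocallyConstant_fibreChi : IsLocallyConstant P.fibreChi := by
  obtain ⟨N, hN⟩ := P.exists_twist_surjective
  have h := hN N le_rfl
  have := (P.twist N).projective_H0 h
  have := (P.twist N).finite_H0 h
  have := P.projective_quotient_pow N
  have := P.finite_quotient_pow N
  rw [show P.fibreChi = fun p => (Module.rankAtStalk (R := R) (P.twist N).H0 p : ℤ) -
      Module.rankAtStalk (R := R) (M₁ ⧸ LinearMap.range (P.y ^ N)) p from
    funext (P.fibreChi_eq h)]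
  have h1 : IsLocallyConstant (Module.rankAtStalk (R := R) (P.twist N).H0) :=
    have := Module.finitePresentation_of_projective R (P.twist N).H0
    Module.isLocallyConstant_rankAtStalk
  have h2 : IsLocallyConstant (Module.rankAtStalk (R := R) (M₁ ⧸ LinearMap.range (P.y ^ N))) :=
    have := Module.finitePresentation_of_projective R (M₁ ⧸ LinearMap.range (P.y ^ N))
    Module.isLocallyConstant_rankAtStalk
  exact h1.comp₂ h2 fun a b => (a : ℤ) - b

/-- The fibre at `p` has no cohomology. -/
def AcyclicAt (p : PrimeSpectrum R) : Prop :=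
  Function.Bijective (P.baseChange p.asIdeal.ResidueField).d

lemma surjective_fibre_iff (p : PrimeSpectrum R) :
    Function.Surjective (P.baseChange p.asIdeal.ResidueField).d ↔
      p ∉ Module.support R P.H1 := by
  have := P.finite_H1
  rw [surjective_baseChange_d_iff_subsingleton,
    Module.mem_support_iff_nontrivial_residueField_tensorProduct, not_nontrivial_iff_subsingleton]

/-- The acyclic locus is open. -/
theorem isOpen_acyclicLocus : IsOpen {p | P.AcyclicAt p} := by
  have := P.finite_H1
  have h : {p | P.AcyclicAt p} = (Module.support R P.H1)ᶜ ∩ {p | P.fibreChi p = 0} := by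
    ext p
    rw [Set.mem_inter_iff, Set.mem_compl_iff, ← P.surjective_fibre_iff]
    exact ⟨fun h => ⟨h.2, chi_eq_zero_of_bijective _ h⟩,
      fun h => bijective_of_chi_eq_zero _ h.2 h.1⟩
  rw [h]
  exact (Module.isClosed_support.isOpen_compl).inter
    (P.isLocallyConstant_fibreChi.isOpen_fiber 0)

/-- If every fibre is surjective then `H¹ = 0`. -/
theorem surjective_of_forall_fibre
    (h : ∀ p : PrimeSpectrum R, Function.Surjective (P.baseChange p.asIdeal.ResidueField).d) :
    Function.Surjective P.d := by
  rw [← LinearMap.range_eq_top, ← Submodule.Quotient.subsingleton_iff,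
    ← Module.support_eq_empty_iff (R := R)]
  exact Set.eq_empty_of_forall_notMem fun p => (P.surjective_fibre_iff p).mp (h p)

/-- If every fibre is acyclic then so is `P`. -/
theorem bijective_of_forall_acyclicAt (h : ∀ p, P.AcyclicAt p) : Function.Bijective P.d := by
  have hs := P.surjective_of_forall_fibre fun p => (h p).2
  have := P.projective_H0 hs
  have := P.finite_H0 hs
  refine ⟨LinearMap.ker_eq_bot.mp ?_, hs⟩
  rw [← Submodule.subsingleton_iff_eq_bot, ← Module.support_eq_empty_iff (R := R)]
  refine Set.eq_empty_of_forall_notMem fun p hp => ?_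
  rw [Module.mem_support_iff_nontrivial_residueField_tensorProduct,
    ← not_subsingleton_iff_nontrivial] at hp
  refine hp ⟨fun a b => (P.bijective_baseChangeH0_of_surjective _ hs).1 ?_⟩
  have : Subsingleton (P.baseChange p.asIdeal.ResidueField).H0 :=
    Submodule.subsingleton_iff_eq_bot.mpr (LinearMap.ker_eq_bot.mpr (h p).1)
  exact Subsingleton.elim _ _

section tower

variable (S T : Type*) [CommRing S] [CommRing T] [Algebra R S] [Algebra R T] [Algebra S T]
  [IsScalarTower R S T]

/-- Iterated base change agrees with base change. -/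
theorem baseChange_baseChange_d (z : T ⊗[S] (S ⊗[R] M₀) × T ⊗[S] (S ⊗[R] M₁)) :
    TensorProduct.AlgebraTensorModule.cancelBaseChange R S T T M₀₁
        (((P.baseChange S).baseChange T).d z) =
      (P.baseChange T).d (TensorProduct.AlgebraTensorModule.cancelBaseChange R S T T M₀ z.1,
        TensorProduct.AlgebraTensorModule.cancelBaseChange R S T T M₁ z.2) := by
  rw [d_apply, d_apply, map_sub]
  simp [baseChange, LinearMap.baseChange_baseChange]

/-- Acyclicity can be tested after iterated base change. -/
theorem bijective_baseChange_baseChange_iff :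
    Function.Bijective ((P.baseChange S).baseChange T).d ↔
      Function.Bijective (P.baseChange T).d := by
  let e₀ := TensorProduct.AlgebraTensorModule.cancelBaseChange R S T T M₀₁
  let e := (TensorProduct.AlgebraTensorModule.cancelBaseChange R S T T M₀).prodCongr
    (TensorProduct.AlgebraTensorModule.cancelBaseChange R S T T M₁)
  have h : e₀ ∘ ((P.baseChange S).baseChange T).d = (P.baseChange T).d ∘ e :=
    funext (P.baseChange_baseChange_d S T)
  rw [← e₀.bijective.of_comp_iff', h, Function.Bijective.of_comp_iff _ e.bijective]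

end tower

/-- Base change of a field does not change the Euler characteristic. -/
theorem chi_baseChange {k M₀ M₁ M₀₁ : Type*} [Field k] [AddCommGroup M₀] [Module k M₀]
    [AddCommGroup M₁] [Module k M₁] [AddCommGroup M₀₁] [Module k M₀₁]
    (P : PatchedModule k M₀ M₁ M₀₁) (L : Type*) [Field L] [Algebra k L] :
    (P.baseChange L).chi = P.chi := by
  rw [chi_eq, chi_eq, (P.baseChangeH1Equiv L).finrank_eq, Module.finrank_baseChange,
    ← (LinearEquiv.ofBijective _ (P.bijective_baseChangeH0_of_flat L)).finrank_eq,
    Module.finrank_baseChange]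

end PatchedModule

end Fermat.Agent.Jacobian
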