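import Fermat.Agent.Jacobian.PatchedModule.Basic
import Mathlib.Algebra.Module.LinearMap.Index

/-!
# Isomorphisms of patched modules

Maps on the three pieces commuting with the structure, bijective on the two charts, are bijective
on the overlap and identify the complexes.
-/

set_option autoImplicit false

noncomputable section

namespace Fermat.Agent.Jacobian.PatchedModule

variable {R M₀ M₁ M₀₁ N₀ N₁ N₀₁ : Type*} [CommRing R] [AddCommGroup M₀] [Module R M₀]
  [AddCommGroup M₁] [Module R M₁] [AddCommGroup M₀₁] [Module R M₀₁] [AddCommGroup N₀] [Module R N₀]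
  [AddCommGroup N₁] [Module R N₁] [AddCommGroup N₀₁] [Module R N₀₁]

/-- An isomorphism, given on the charts. -/
structure ChartIso (P : PatchedModule R M₀ M₁ M₀₁) (Q : PatchedModule R N₀ N₁ N₀₁) where
  e₀ : M₀ →ₗ[R] N₀
  e₁ : M₁ →ₗ[R] N₁
  e : M₀₁ →ₗ[R] N₀₁
  e_r₀ : ∀ m, e (P.r₀ m) = Q.r₀ (e₀ m)
  e_r₁ : ∀ m, e (P.r₁ m) = Q.r₁ (e₁ m)
  e_X : ∀ v, e (P.X v) = Q.X (e v)
  bij₀ : Function.Bijective e₀
  bij₁ : Function.Bijective e₁

namespace ChartIso

variable {P : PatchedModule R M₀ M₁ M₀₁} {Q : PatchedModule R N₀ N₁ N₀₁} (F : ChartIso P Q)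

lemma e_pow (n : ℕ) (v : M₀₁) : F.e ((P.X ^ n) v) = (Q.X ^ n) (F.e v) := by
  induction n with
  | zero => rfl
  | succ n ih => rw [pow_succ', pow_succ', LinearEquiv.mul_apply, LinearEquiv.mul_apply, F.e_X, ih]

theorem bijective_e : Function.Bijective F.e := by
  refine ⟨(injective_iff_map_eq_zero _).mpr fun v hv => ?_, fun w => ?_⟩
  · obtain ⟨n, m, hm⟩ := P.exhaust₀ v
    have h := congrArg F.e hm
    rw [F.e_r₀, e_pow, hv, map_zero, map_eq_zero_iff _ Q.injective_r₀,
      map_eq_zero_iff _ F.bij₀.1] at h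
    rw [h, map_zero, eq_comm, LinearEquiv.map_eq_zero_iff] at hm
    exact hm
  · obtain ⟨n, m', hm⟩ := Q.exhaust₀ w
    obtain ⟨m, rfl⟩ := F.bij₀.2 m'
    refine ⟨(P.X ^ n).symm (P.r₀ m), (Q.X ^ n).injective ?_⟩
    rw [← e_pow, LinearEquiv.apply_symm_apply, F.e_r₀, hm]

/-- The map of complexes on the source. -/
def src : (M₀ × M₁) ≃ₗ[R] (N₀ × N₁) :=
  (LinearEquiv.ofBijective F.e₀ F.bij₀).prodCongr (LinearEquiv.ofBijective F.e₁ F.bij₁)

/-- The map of complexes on the target. -/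
def tgt : M₀₁ ≃ₗ[R] N₀₁ := LinearEquiv.ofBijective F.e F.bijective_e

lemma d_src (z : M₀ × M₁) : Q.d (F.src z) = F.tgt (P.d z) := by
  simp [src, tgt, d_apply, F.e_r₀, F.e_r₁]

include F in
lemma bijective_d_iff : Function.Bijective Q.d ↔ Function.Bijective P.d := by
  have h : Q.d ∘ F.src = F.tgt ∘ P.d := funext F.d_src
  rw [← Function.Bijective.of_comp_iff _ F.src.bijective, h, F.tgt.bijective.of_comp_iff']

include F in
lemma surjective_d_iff : Function.Surjective Q.d ↔ Function.Surjective P.d := by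
  have h : Q.d ∘ F.src = F.tgt ∘ P.d := funext F.d_src
  rw [← Function.Surjective.of_comp_iff _ F.src.surjective, h,
    Function.Surjective.of_comp_iff' F.tgt.bijective]

/-- The induced map on `H⁰`. -/
def H0Equiv : P.H0 ≃ₗ[R] Q.H0 :=
  F.src.ofSubmodules _ _ (by
    ext w
    simp only [Submodule.mem_map, LinearMap.mem_ker]
    constructor
    · rintro ⟨z, hz, rfl⟩
      show Q.d (F.src z) = 0
      rw [F.d_src, hz, map_zero]
    · intro hw
      refine ⟨F.src.symm w, F.tgt.injective ?_, F.src.apply_symm_apply w⟩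
      rw [← F.d_src, LinearEquiv.apply_symm_apply, hw, map_zero])

/-- The induced map on `H¹`. -/
def H1Equiv : P.H1 ≃ₗ[R] Q.H1 :=
  Submodule.Quotient.equiv _ _ F.tgt (by
    ext w
    simp only [Submodule.mem_map, LinearMap.mem_range]
    constructor
    · rintro ⟨v, ⟨z, rfl⟩, rfl⟩
      exact ⟨F.src z, F.d_src z⟩
    · rintro ⟨u, rfl⟩
      refine ⟨P.d (F.src.symm u), ⟨_, rfl⟩, ?_⟩
      show F.tgt _ = _
      rw [← F.d_src, LinearEquiv.apply_symm_apply])

include F in
lemma index_eq : Q.d.index = P.d.index := by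
  rw [LinearMap.index_eq_finrank_sub, LinearMap.index_eq_finrank_sub, ← F.H0Equiv.finrank_eq,
    ← F.H1Equiv.finrank_eq]

end ChartIso

end Fermat.Agent.Jacobian.PatchedModule
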