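import Fermat.Agent.Jacobian.PatchedModule.Basic
import Mathlib.Algebra.Polynomial.Module.AEval
import Mathlib.LinearAlgebra.StdBasis
import Mathlib.Algebra.Polynomial.Basis
import Mathlib.RingTheory.Finiteness.Projective

/-!
# Frames from finite projective modules over `R[X]`
-/

set_option autoImplicit false

noncomputable section

open Polynomial

namespace Fermat.Agent.Jacobian

variable (R : Type*) [CommRing R]

/-- The monomial basis of `R[X]ⁿ`. -/
def polyPiBasis (n : ℕ) : Module.Basis (Fin n × ℕ) R (Fin n → R[X]) :=
  (Pi.basis fun _ : Fin n => Polynomial.basisMonomials R).reindex (Equiv.sigmaEquivProd (Fin n) ℕ)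

lemma polyPiBasis_apply (n : ℕ) (a : Fin n × ℕ) :
    polyPiBasis R n a = Pi.single a.1 (monomial a.2 1) := by
  simp [polyPiBasis, Pi.basis_apply]

lemma polyPiBasis_repr_X_smul (n : ℕ) (v : Fin n → R[X]) :
    (polyPiBasis R n).repr ((X : R[X]) • v) = shiftLin R n ((polyPiBasis R n).repr v) := by
  have h : (polyPiBasis R n).repr.toLinearMap ∘ₗ
      (LinearMap.lsmul R[X] (Fin n → R[X]) X).restrictScalars R =
      shiftLin R n ∘ₗ (polyPiBasis R n).repr.toLinearMap := by
    refine (polyPiBasis R n).ext fun a => ?_
    simp only [LinearMap.comp_apply, LinearEquiv.coe_coe, LinearMap.restrictScalars_apply,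
      LinearMap.lsmul_apply, Module.Basis.repr_self, shiftLin, Finsupp.lmapDomain_apply,
      Finsupp.mapDomain_single]
    rw [← (polyPiBasis R n).repr_self (a.1, a.2 + 1), polyPiBasis_apply, polyPiBasis_apply]
    congr 1
    rw [← Pi.single_smul, smul_eq_mul, ← monomial_one_one_eq_X, monomial_mul_monomial, add_comm,
      one_mul]
  exact LinearMap.congr_fun h v

variable {R} {M : Type*} [AddCommGroup M] [Module R M]

/-- A module which is finite projective over `R[X]`, with `X` acting as `x`, has a frame. -/
theorem nonempty_frame_of_projective (x : M →ₗ[R] M)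
    [Module.Finite R[X] (Module.AEval' x)] [Module.Projective R[X] (Module.AEval' x)] :
    Nonempty (Frame x) := by
  obtain ⟨n, f, g, -, -, hfg⟩ :=
    Module.Finite.exists_comp_eq_id_of_projective R[X] (Module.AEval' x)
  let o := Module.AEval'.of x
  exact ⟨{
    n := n
    j := (polyPiBasis R n).repr.toLinearMap ∘ₗ g.restrictScalars R ∘ₗ o.toLinearMap
    p := o.symm.toLinearMap ∘ₗ f.restrictScalars R ∘ₗ (polyPiBasis R n).repr.symm.toLinearMap
    p_j := fun m => by
      simp only [LinearMap.comp_apply, LinearEquiv.coe_coe, LinearEquiv.symm_apply_apply,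
        LinearMap.restrictScalars_apply]
      rw [← LinearMap.comp_apply f g, hfg, LinearMap.id_apply, LinearEquiv.symm_apply_apply]
    j_x := fun m => by
      simp only [LinearMap.comp_apply, LinearEquiv.coe_coe, LinearMap.restrictScalars_apply]
      rw [show o (x m) = (X : R[X]) • o m from (Module.AEval'.X_smul_of x m).symm, map_smul,
        polyPiBasis_repr_X_smul]
    p_shift := fun v => by
      obtain ⟨w, rfl⟩ := (polyPiBasis R n).repr.surjective v
      simp only [LinearMap.comp_apply, LinearEquiv.coe_coe, LinearMap.restrictScalars_apply,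
        ← polyPiBasis_repr_X_smul, LinearEquiv.symm_apply_apply, map_smul]
      exact Module.AEval.of_symm_X_smul (a := x) (f w) }⟩

/-- A frame chosen from `nonempty_frame_of_projective`. -/
def Frame.ofProjective (x : M →ₗ[R] M)
    [Module.Finite R[X] (Module.AEval' x)] [Module.Projective R[X] (Module.AEval' x)] : Frame x :=
  (nonempty_frame_of_projective x).some

end Fermat.Agent.Jacobian
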