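import Fermat.Agent.Jacobian.PatchedModule.Basic

/-!
# Twists of patched modules

`P.twist m` replaces `r₁` by `X^m ∘ r₁`.  Its complex differs from that of `P` by
`M₁ ⧸ y^m M₁`, which is finite projective.
-/

set_option autoImplicit false

noncomputable section

namespace Fermat.Agent.Jacobian

variable {R M₀ M₁ M₀₁ : Type*} [CommRing R] [AddCommGroup M₀] [Module R M₀] [AddCommGroup M₁]
  [Module R M₁] [AddCommGroup M₀₁] [Module R M₀₁]

namespace PatchedModule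

variable (P : PatchedModule R M₀ M₁ M₀₁)

/-- The twist by `m`. -/
def twist (m : ℕ) : PatchedModule R M₀ M₁ M₀₁ where
  x := P.x
  y := P.y
  X := P.X
  r₀ := P.r₀
  r₁ := ((P.X ^ m : M₀₁ ≃ₗ[R] M₀₁) : M₀₁ →ₗ[R] M₀₁) ∘ₗ P.r₁
  r₀_x := P.r₀_x
  r₁_y n := by
    show (P.X ^ m) (P.r₁ (P.y n)) = P.X.symm ((P.X ^ m) (P.r₁ n))
    rw [P.r₁_y, show P.X.symm = P.X⁻¹ from rfl, ← LinearEquiv.mul_apply, ← LinearEquiv.mul_apply,
      ((Commute.refl P.X).inv_left.pow_right m).eq]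
  injective_r₀ := P.injective_r₀
  injective_r₁ := (P.X ^ m).injective.comp P.injective_r₁
  exhaust₀ := P.exhaust₀
  exhaust₁ v := by
    obtain ⟨k, n, hn⟩ := P.exhaust₁ v
    refine ⟨k, (P.y ^ m) n, ?_⟩
    show (P.X ^ m) (P.r₁ ((P.y ^ m) n)) = _
    rw [r₁_pow, hn]
    exact P.lattices.pow_symm_pow m _
  frame₀ := P.frame₀
  frame₁ := P.frame₁

/-- `id × y^m`, the map from the complex of `P` to that of `P.twist m`. -/
def twistMap (m : ℕ) : (M₀ × M₁) →ₗ[R] (M₀ × M₁) := LinearMap.id.prodMap (P.y ^ m)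

lemma twist_d_comp (m : ℕ) : (P.twist m).d ∘ₗ P.twistMap m = P.d := by
  refine LinearMap.ext fun z => ?_
  rw [LinearMap.comp_apply, d_apply, d_apply]
  show P.r₀ z.1 - (P.X ^ m) (P.r₁ ((P.y ^ m) z.2)) = _
  rw [r₁_pow]
  exact congrArg (P.r₀ z.1 - ·) (P.lattices.pow_symm_pow m _)

/-- Large twists have no `H¹`. -/
theorem exists_twist_surjective : ∃ N : ℕ, ∀ m, N ≤ m → Function.Surjective (P.twist m).d := by
  obtain ⟨N, hN⟩ := P.lattices.exists_sup_twist_eq_top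
  refine ⟨N, fun m hm => ?_⟩
  rw [← LinearMap.range_eq_top, range_d, eq_top_iff, ← hN m hm]
  refine sup_le_sup le_rfl ?_
  intro v hv
  obtain ⟨n, hn⟩ := P.lattices.mem_twist.mp hv
  exact ⟨n, by
    show (P.X ^ m) (P.r₁ n) = v
    rw [hn]; exact P.lattices.pow_symm_pow m v⟩

/-- A left inverse of `y^m`. -/
def twistInv (m : ℕ) : M₁ →ₗ[R] M₁ :=
  P.leftInv₁ ∘ₗ ((P.X ^ m : M₀₁ ≃ₗ[R] M₀₁) : M₀₁ →ₗ[R] M₀₁) ∘ₗ P.r₁

lemma twistInv_pow (m : ℕ) (n : M₁) : P.twistInv m ((P.y ^ m) n) = n := by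
  show P.leftInv₁ ((P.X ^ m) (P.r₁ ((P.y ^ m) n))) = n
  rw [r₁_pow]
  exact (congrArg P.leftInv₁ (P.lattices.pow_symm_pow m _)).trans (P.leftInv₁_r₁ n)

/-- `M₁ ⧸ y^m M₁` is projective. -/
theorem projective_quotient_pow (m : ℕ) :
    Module.Projective R (M₁ ⧸ LinearMap.range (P.y ^ m)) := by
  have := P.frame₁.projective
  refine Module.Projective.of_split
    ((LinearMap.range (P.y ^ m)).liftQ (LinearMap.id - (P.y ^ m) ∘ₗ P.twistInv m) ?_)
    (LinearMap.range (P.y ^ m)).mkQ ?_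
  · rintro _ ⟨n, rfl⟩
    simp [twistInv_pow]
  · refine Submodule.linearMap_qext _ (LinearMap.ext fun n => ?_)
    simp

/-- `M₁ ⧸ y^m M₁` is finitely generated. -/
theorem finite_quotient_pow (m : ℕ) : Module.Finite R (M₁ ⧸ LinearMap.range (P.y ^ m)) := by
  classical
  let g : Fin P.frame₁.n × Fin m → M₁ := fun a =>
    P.frame₁.p (Finsupp.single (a.1, (a.2 : ℕ)) 1)
  refine Module.Finite.of_surjective
    ((LinearMap.range (P.y ^ m)).mkQ ∘ₗ Fintype.linearCombination R g) ?_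
  rw [← LinearMap.range_eq_top, eq_top_iff]
  rintro z -
  obtain ⟨n, rfl⟩ := Submodule.mkQ_surjective _ z
  rw [← P.frame₁.p_j n]
  induction P.frame₁.j n using Finsupp.induction_linear with
  | zero => simp
  | add a b ha hb => simp only [map_add]; exact add_mem ha hb
  | single b c =>
    rw [← Finsupp.smul_single_one b c]
    simp only [map_smul]
    refine Submodule.smul_mem _ c ?_
    obtain ⟨b, i⟩ := b
    by_cases hi : i < m
    · exact ⟨Pi.single (b, ⟨i, hi⟩) 1, by simp [g]⟩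
    · refine ⟨0, ?_⟩
      rw [map_zero, eq_comm, Submodule.mkQ_apply, Submodule.Quotient.mk_eq_zero]
      obtain ⟨k, rfl⟩ := Nat.exists_eq_add_of_le (not_lt.mp hi)
      exact ⟨(P.y ^ k) (P.frame₁.p (Finsupp.single (b, 0) 1)), by
        rw [← Module.End.mul_apply, ← pow_add, ← P.frame₁.p_single]⟩

end PatchedModule

end Fermat.Agent.Jacobian
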