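import Fermat.Agent.Jacobian.Lattice
import Mathlib.Algebra.Module.Projective
import Mathlib.LinearAlgebra.Finsupp.LSum
import Mathlib.LinearAlgebra.Finsupp.Supported
import Mathlib.LinearAlgebra.Prod
import Mathlib.RingTheory.Finiteness.Prod
import Mathlib.RingTheory.Finiteness.Finsupp
import Mathlib.LinearAlgebra.Quotient.Basic

/-!
# Patched modules: the Čech complex of a bundle on two affine charts

A `PatchedModule` consists of modules `M₀`, `M₁` with endomorphisms `x`, `y` making them finite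
projective over `R[x]`, resp. `R[y]` (recorded by a `Frame`: an equivariant retraction of a finite
free one), and a common localisation `M₀₁` on which `X` is invertible, with `x ↦ X`, `y ↦ X⁻¹`.
`H⁰` and `H¹` are the kernel and cokernel of `r₀ - r₁`.
-/

set_option autoImplicit false

noncomputable section

namespace Fermat.Agent.Jacobian

variable (R : Type*) [CommRing R]

/-- Multiplication by `T` on `R[T]ⁿ`, in coordinates. -/
def shiftLin (n : ℕ) : (Fin n × ℕ →₀ R) →ₗ[R] (Fin n × ℕ →₀ R) :=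
  Finsupp.lmapDomain R R fun a => (a.1, a.2 + 1)

variable {R} {M : Type*} [AddCommGroup M] [Module R M]

/-- An equivariant retraction of `R[T]ⁿ` onto `(M, x)`: `M` is finite projective over `R[x]`. -/
structure Frame (x : M →ₗ[R] M) where
  n : ℕ
  j : M →ₗ[R] (Fin n × ℕ →₀ R)
  p : (Fin n × ℕ →₀ R) →ₗ[R] M
  p_j : ∀ m, p (j m) = m
  j_x : ∀ m, j (x m) = shiftLin R n (j m)
  p_shift : ∀ f, p (shiftLin R n f) = x (p f)

namespace Frame

variable {x : M →ₗ[R] M} (F : Frame x)

include F in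
theorem projective : Module.Projective R M :=
  Module.Projective.of_split F.j F.p (LinearMap.ext F.p_j)

theorem p_single (a : Fin F.n) (i : ℕ) :
    F.p (Finsupp.single (a, i) 1) = (x ^ i) (F.p (Finsupp.single (a, 0) 1)) := by
  induction i with
  | zero => rfl
  | succ i ih =>
    rw [pow_succ', Module.End.mul_apply, ← ih, ← F.p_shift, shiftLin, Finsupp.lmapDomain_apply,
      Finsupp.mapDomain_single]

end Frame

variable (R) (M₀ M₁ M₀₁ : Type*) [AddCommGroup M₀] [Module R M₀] [AddCommGroup M₁] [Module R M₁]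
  [AddCommGroup M₀₁] [Module R M₀₁]

/-- Two finite projective modules over `R[x]`, `R[y]` glued along their localisations. -/
structure PatchedModule where
  x : M₀ →ₗ[R] M₀
  y : M₁ →ₗ[R] M₁
  X : M₀₁ ≃ₗ[R] M₀₁
  r₀ : M₀ →ₗ[R] M₀₁
  r₁ : M₁ →ₗ[R] M₀₁
  r₀_x : ∀ m, r₀ (x m) = X (r₀ m)
  r₁_y : ∀ m, r₁ (y m) = X.symm (r₁ m)
  injective_r₀ : Function.Injective r₀
  injective_r₁ : Function.Injective r₁
  exhaust₀ : ∀ v, ∃ n : ℕ, (X ^ n) v ∈ LinearMap.range r₀
  exhaust₁ : ∀ v, ∃ n : ℕ, (X.symm ^ n) v ∈ LinearMap.range r₁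
  frame₀ : Frame x
  frame₁ : Frame y

namespace PatchedModule

variable {R M₀ M₁ M₀₁} (P : PatchedModule R M₀ M₁ M₀₁)

/-- The same data seen from the other chart. -/
def swap : PatchedModule R M₁ M₀ M₀₁ where
  x := P.y
  y := P.x
  X := P.X.symm
  r₀ := P.r₁
  r₁ := P.r₀
  r₀_x := P.r₁_y
  r₁_y := P.r₀_x
  injective_r₀ := P.injective_r₁
  injective_r₁ := P.injective_r₀
  exhaust₀ := P.exhaust₁
  exhaust₁ := P.exhaust₀
  frame₀ := P.frame₁
  frame₁ := P.frame₀

lemma r₀_pow (i : ℕ) (m : M₀) : P.r₀ ((P.x ^ i) m) = (P.X ^ i) (P.r₀ m) := by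
  induction i with
  | zero => rfl
  | succ i ih =>
    rw [pow_succ' P.x, pow_succ' P.X]
    show P.r₀ (P.x ((P.x ^ i) m)) = P.X ((P.X ^ i) (P.r₀ m))
    rw [P.r₀_x, ih]

lemma r₁_pow (i : ℕ) (m : M₁) : P.r₁ ((P.y ^ i) m) = (P.X.symm ^ i) (P.r₁ m) :=
  P.swap.r₀_pow i m

/-! ### Coordinates on the localisation -/

/-- Degree `i ↦ i + k` in Laurent coordinates. -/
def shiftInt (k : ℤ) : (Fin P.frame₀.n × ℤ →₀ R) →ₗ[R] (Fin P.frame₀.n × ℤ →₀ R) :=
  Finsupp.lmapDomain R R fun a => (a.1, a.2 + k)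

lemma shiftInt_shiftInt (k l : ℤ) (f : Fin P.frame₀.n × ℤ →₀ R) :
    P.shiftInt k (P.shiftInt l f) = P.shiftInt (l + k) f := by
  simp only [shiftInt, Finsupp.lmapDomain_apply, ← Finsupp.mapDomain_comp]
  congr 1
  funext a
  simp [add_assoc]

/-- `R[T] ⊆ R[T, T⁻¹]` in coordinates. -/
def toLaurent : (Fin P.frame₀.n × ℕ →₀ R) →ₗ[R] (Fin P.frame₀.n × ℤ →₀ R) :=
  Finsupp.lmapDomain R R fun a => (a.1, (a.2 : ℤ))

lemma toLaurent_j_x (m : M₀) :
    P.toLaurent (P.frame₀.j (P.x m)) = P.shiftInt 1 (P.toLaurent (P.frame₀.j m)) := by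
  rw [P.frame₀.j_x]
  simp only [shiftLin, toLaurent, shiftInt, Finsupp.lmapDomain_apply, ← Finsupp.mapDomain_comp]
  congr 1

lemma toLaurent_j_pow (i : ℕ) (m : M₀) :
    P.toLaurent (P.frame₀.j ((P.x ^ i) m)) = P.shiftInt i (P.toLaurent (P.frame₀.j m)) := by
  induction i with
  | zero =>
    simp only [pow_zero, Module.End.one_apply, shiftInt, Finsupp.lmapDomain_apply, Nat.cast_zero,
      add_zero]
    exact (Finsupp.mapDomain_id).symm
  | succ i ih =>
    rw [pow_succ', Module.End.mul_apply, toLaurent_j_x, ih, shiftInt_shiftInt]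
    push_cast
    rfl

/-- The coordinates of an element of `M₀₁`. -/
def coordFun (v : M₀₁) : Fin P.frame₀.n × ℤ →₀ R :=
  P.shiftInt (-((P.exhaust₀ v).choose : ℤ))
    (P.toLaurent (P.frame₀.j (P.exhaust₀ v).choose_spec.choose))

lemma coordFun_eq {v : M₀₁} {k : ℕ} {m : M₀} (h : P.r₀ m = (P.X ^ k) v) :
    P.coordFun v = P.shiftInt (-(k : ℤ)) (P.toLaurent (P.frame₀.j m)) := by
  rw [coordFun]
  set k' := (P.exhaust₀ v).choose
  set m' := (P.exhaust₀ v).choose_spec.choose
  have h' : P.r₀ m' = (P.X ^ k') v := (P.exhaust₀ v).choose_spec.choose_spec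
  have key : (P.x ^ k) m' = (P.x ^ k') m := P.injective_r₀ (by
    rw [r₀_pow, r₀_pow, h, h', ← LinearEquiv.mul_apply, ← LinearEquiv.mul_apply, ← pow_add,
      ← pow_add, add_comm])
  have h1 := congrArg (fun z => P.shiftInt (-((k : ℤ) + k')) (P.toLaurent (P.frame₀.j z))) key
  simp only [toLaurent_j_pow, shiftInt_shiftInt] at h1
  rwa [show (k : ℤ) + -((k : ℤ) + k') = -(k' : ℤ) by ring,
    show (k' : ℤ) + -((k : ℤ) + k') = -(k : ℤ) by ring] at h1

/-- The coordinates on `M₀₁` as a linear map. -/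
def coord : M₀₁ →ₗ[R] (Fin P.frame₀.n × ℤ →₀ R) where
  toFun := P.coordFun
  map_add' v w := by
    obtain ⟨k, m, hm⟩ := P.exhaust₀ v
    obtain ⟨l, m', hm'⟩ := P.exhaust₀ w
    have h1 : P.r₀ ((P.x ^ l) m) = (P.X ^ (l + k)) v := by
      rw [r₀_pow, hm, ← LinearEquiv.mul_apply, ← pow_add]
    have h2 : P.r₀ ((P.x ^ k) m') = (P.X ^ (l + k)) w := by
      rw [r₀_pow, hm', ← LinearEquiv.mul_apply, ← pow_add, add_comm]
    rw [P.coordFun_eq h1, P.coordFun_eq h2,
      P.coordFun_eq (m := (P.x ^ l) m + (P.x ^ k) m') (v := v + w)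
        (by rw [map_add, h1, h2, map_add]), map_add, map_add, map_add]
  map_smul' c v := by
    obtain ⟨k, m, hm⟩ := P.exhaust₀ v
    rw [RingHom.id_apply, P.coordFun_eq hm, P.coordFun_eq (m := c • m) (v := c • v)
      (by rw [map_smul, hm, map_smul]), map_smul, map_smul, map_smul]

lemma coord_eq {v : M₀₁} {k : ℕ} {m : M₀} (h : P.r₀ m = (P.X ^ k) v) :
    P.coord v = P.shiftInt (-(k : ℤ)) (P.toLaurent (P.frame₀.j m)) :=
  P.coordFun_eq h

lemma coord_r₀ (m : M₀) : P.coord (P.r₀ m) = P.toLaurent (P.frame₀.j m) := by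
  rw [P.coord_eq (v := P.r₀ m) (k := 0) (m := m) (by simp)]
  simp only [shiftInt, Finsupp.lmapDomain_apply, Nat.cast_zero, neg_zero, add_zero]
  exact Finsupp.mapDomain_id

lemma coord_symm (v : M₀₁) : P.coord (P.X.symm v) = P.shiftInt (-1) (P.coord v) := by
  obtain ⟨k, m, hm⟩ := P.exhaust₀ v
  rw [P.coord_eq hm, P.coord_eq (k := k + 1) (m := m) (v := P.X.symm v)
    (by rw [hm, pow_succ, LinearEquiv.mul_apply, LinearEquiv.apply_symm_apply]),
    shiftInt_shiftInt]
  congr 2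
  push_cast
  ring

lemma coord_symm_pow (i : ℕ) (v : M₀₁) :
    P.coord ((P.X.symm ^ i) v) = P.shiftInt (-(i : ℤ)) (P.coord v) := by
  induction i with
  | zero =>
    simp only [pow_zero, shiftInt, Finsupp.lmapDomain_apply, Nat.cast_zero, neg_zero, add_zero]
    exact Finsupp.mapDomain_id.symm
  | succ i ih =>
    rw [pow_succ', LinearEquiv.mul_apply, coord_symm, ih, shiftInt_shiftInt]
    push_cast
    congr 2
    ring

/-- The inverse of `coord`. -/
def ofCoord : (Fin P.frame₀.n × ℤ →₀ R) →ₗ[R] M₀₁ :=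
  Finsupp.linearCombination R fun a => (P.X ^ a.2) (P.r₀ (P.frame₀.p (Finsupp.single (a.1, 0) 1)))

lemma ofCoord_toLaurent (f : Fin P.frame₀.n × ℕ →₀ R) :
    P.ofCoord (P.toLaurent f) = P.r₀ (P.frame₀.p f) := by
  induction f using Finsupp.induction_linear with
  | zero => simp
  | add a b ha hb => simp only [map_add, ha, hb]
  | single a c =>
    rw [← Finsupp.smul_single_one a c]
    simp only [map_smul, toLaurent, ofCoord, Finsupp.lmapDomain_apply, Finsupp.mapDomain_single,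
      Finsupp.linearCombination_single, one_smul]
    obtain ⟨b, i⟩ := a
    conv_rhs => rw [P.frame₀.p_single b i, r₀_pow]
    simp only [zpow_natCast]

lemma ofCoord_shiftInt (k : ℤ) (f : Fin P.frame₀.n × ℤ →₀ R) :
    P.ofCoord (P.shiftInt k f) = (P.X ^ k) (P.ofCoord f) := by
  induction f using Finsupp.induction_linear with
  | zero => simp
  | add a b ha hb => simp only [map_add, ha, hb]
  | single a c =>
    simp only [shiftInt, ofCoord, Finsupp.lmapDomain_apply, Finsupp.mapDomain_single,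
      Finsupp.linearCombination_single, map_smul]
    rw [← LinearEquiv.mul_apply, ← zpow_add, add_comm]

lemma ofCoord_coord (v : M₀₁) : P.ofCoord (P.coord v) = v := by
  obtain ⟨k, m, hm⟩ := P.exhaust₀ v
  rw [P.coord_eq hm, ofCoord_shiftInt, ofCoord_toLaurent, P.frame₀.p_j, hm, zpow_neg,
    zpow_natCast, ← LinearEquiv.mul_apply, inv_mul_cancel]
  rfl

include P in
theorem projective₀₁ : Module.Projective R M₀₁ :=
  Module.Projective.of_split P.coord P.ofCoord (LinearMap.ext P.ofCoord_coord)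

/-- Keep the degrees `≥ 0`. -/
def trunc : (Fin P.frame₀.n × ℤ →₀ R) →ₗ[R] (Fin P.frame₀.n × ℕ →₀ R) :=
  Finsupp.lcomapDomain (fun a => (a.1, (a.2 : ℤ))) fun a b h => by
    simpa [Prod.ext_iff] using h

/-- An `R`-linear left inverse of `r₀`. -/
def leftInv₀ : M₀₁ →ₗ[R] M₀ := P.frame₀.p ∘ₗ P.trunc ∘ₗ P.coord

lemma leftInv₀_r₀ (m : M₀) : P.leftInv₀ (P.r₀ m) = m := by
  have h : P.trunc (P.toLaurent (P.frame₀.j m)) = P.frame₀.j m := by
    ext a
    simp only [trunc, toLaurent, Finsupp.lmapDomain_apply]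
    exact Finsupp.mapDomain_apply (fun a b hab => by simpa [Prod.ext_iff] using hab) _ a
  simp only [leftInv₀, LinearMap.comp_apply, coord_r₀, h, P.frame₀.p_j]

/-- An `R`-linear left inverse of `r₁`. -/
def leftInv₁ : M₀₁ →ₗ[R] M₁ := P.swap.leftInv₀

lemma leftInv₁_r₁ (m : M₁) : P.leftInv₁ (P.r₁ m) = m := P.swap.leftInv₀_r₀ m

/-- The degrees of `range r₁` are bounded above. -/
lemma exists_bound : ∃ N : ℕ, ∀ m : M₁, ∀ a ∈ (P.coord (P.r₁ m)).support, a.2 ≤ (N : ℤ) := by
  classical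
  set B : Fin P.frame₁.n → M₀₁ := fun b => P.r₁ (P.frame₁.p (Finsupp.single (b, 0) 1))
  set N := Finset.univ.sup fun b => (P.coord (B b)).support.sup fun a => a.2.toNat
  refine ⟨N, fun m => ?_⟩
  have key : P.coord (P.r₁ m) ∈ Finsupp.supported R R {a | a.2 ≤ (N : ℤ)} := by
    rw [← P.frame₁.p_j m]
    induction P.frame₁.j m using Finsupp.induction_linear with
    | zero => simp
    | add a b ha hb => simp only [map_add]; exact add_mem ha hb
    | single b c =>
      rw [← Finsupp.smul_single_one b c]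
      simp only [map_smul]
      refine Submodule.smul_mem _ c ?_
      rw [← Prod.mk.eta (p := b), P.frame₁.p_single, r₁_pow, coord_symm_pow, shiftInt,
        Finsupp.lmapDomain_apply, Finsupp.mem_supported]
      intro a ha
      obtain ⟨a', ha', rfl⟩ := Finset.mem_image.mp (Finsupp.mapDomain_support ha)
      have h1 : a'.2.toNat ≤ N :=
        (Finset.le_sup (f := fun a => a.2.toNat) ha').trans
          (Finset.le_sup (f := fun b => (P.coord (B b)).support.sup fun a => a.2.toNat)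
            (Finset.mem_univ b.1))
      show a'.2 + -(b.2 : ℤ) ≤ (N : ℤ)
      have h2 := Int.self_le_toNat a'.2
      omega
  exact fun a ha => (Finsupp.mem_supported R _).mp key ha

/-- The points of `range r₀ ⊓ range r₁` come from a finitely generated piece of `M₀`. -/
lemma exists_window₀ :
    ∃ L : Submodule R M₀, L.FG ∧ ∀ m n, P.r₀ m = P.r₁ n → m ∈ L := by
  classical
  obtain ⟨N, hN⟩ := P.exists_bound
  refine ⟨Submodule.span R ↑((Finset.univ ×ˢ Finset.range (N + 1)).image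
    fun a : Fin P.frame₀.n × ℕ => P.frame₀.p (Finsupp.single a 1)),
    Submodule.fg_span (Finset.finite_toSet _), fun m n h => ?_⟩
  rw [← P.leftInv₀_r₀ m, h]
  simp only [leftInv₀, LinearMap.comp_apply]
  rw [← Finsupp.sum_single (P.trunc (P.coord (P.r₁ n))), Finsupp.sum, map_sum]
  refine Submodule.sum_mem _ fun a ha => ?_
  rw [← Finsupp.smul_single_one, map_smul]
  refine Submodule.smul_mem _ _ (Submodule.subset_span ?_)
  rw [Finset.coe_image]
  refine ⟨a, ?_, rfl⟩
  simp only [trunc, Finsupp.mem_support_iff] at ha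
  have : (a.2 : ℤ) ≤ N := hN n _ (Finsupp.mem_support_iff.mpr ha)
  simp only [Finset.coe_product, Finset.coe_univ, Set.mem_prod, Set.mem_univ, true_and,
    Finset.coe_range, Set.mem_Iio]
  omega

/-! ### The complex -/

/-- `r₀ - r₁`. -/
def d : (M₀ × M₁) →ₗ[R] M₀₁ := P.r₀.coprod (-P.r₁)

lemma d_apply (z : M₀ × M₁) : P.d z = P.r₀ z.1 - P.r₁ z.2 := by
  simp [d, sub_eq_add_neg]

/-- Global sections. -/
abbrev H0 : Submodule R (M₀ × M₁) := LinearMap.ker P.d

/-- First cohomology. -/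
abbrev H1 := M₀₁ ⧸ LinearMap.range P.d

lemma range_d : LinearMap.range P.d = LinearMap.range P.r₀ ⊔ LinearMap.range P.r₁ := by
  rw [d, LinearMap.range_coprod, LinearMap.range_neg]

open scoped Classical in
lemma range_eq_span :
    LinearMap.range P.r₀ = Submodule.span R
      {v | ∃ s ∈ (Finset.univ : Finset (Fin P.frame₀.n)).image
          (fun b => P.r₀ (P.frame₀.p (Finsupp.single (b, 0) 1))),
        ∃ i : ℕ, v = (P.X ^ i) s} := by
  classical
  refine le_antisymm ?_ (Submodule.span_le.mpr ?_)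
  · rintro _ ⟨m, rfl⟩
    rw [← P.frame₀.p_j m]
    induction P.frame₀.j m using Finsupp.induction_linear with
    | zero => simp
    | add a b ha hb => simp only [map_add]; exact add_mem ha hb
    | single b c =>
      rw [← Finsupp.smul_single_one b c]
      simp only [map_smul]
      refine Submodule.smul_mem _ c (Submodule.subset_span ?_)
      exact ⟨_, Finset.mem_image_of_mem _ (Finset.mem_univ b.1), b.2, by
        rw [← r₀_pow, ← P.frame₀.p_single]⟩
  · rintro _ ⟨s, hs, i, rfl⟩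
    obtain ⟨b, -, rfl⟩ := Finset.mem_image.mp hs
    exact ⟨_, P.r₀_pow i _⟩

/-- The pair of lattices `range r₀`, `range r₁`. -/
def lattices : Lattices R M₀₁ := by
  classical exact
  { x := P.X
    P₀ := LinearMap.range P.r₀
    P₁ := LinearMap.range P.r₁
    x_mem := by rintro _ ⟨m, rfl⟩; exact ⟨_, P.r₀_x m⟩
    x_symm_mem := by rintro _ ⟨m, rfl⟩; exact ⟨_, P.r₁_y m⟩
    exhaust₀ := P.exhaust₀
    exhaust₁ := P.exhaust₁
    gen₀ := ⟨_, fun v hv => by
      obtain ⟨b, -, rfl⟩ := Finset.mem_image.mp hv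
      exact ⟨_, rfl⟩, P.range_eq_span⟩
    gen₁ := ⟨_, fun v hv => by
      obtain ⟨b, -, rfl⟩ := Finset.mem_image.mp hv
      exact ⟨_, rfl⟩, P.swap.range_eq_span⟩ }

/-- `H¹` is finitely generated. -/
theorem finite_H1 : Module.Finite R P.H1 := by
  obtain ⟨G, hG, htop⟩ := P.lattices.exists_fg_complement
  have : Module.Finite R G := Module.Finite.iff_fg.mpr hG
  refine Module.Finite.of_surjective ((LinearMap.range P.d).mkQ ∘ₗ G.subtype) ?_
  intro z
  obtain ⟨v, rfl⟩ := Submodule.mkQ_surjective _ z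
  obtain ⟨a, ha, b, hb, rfl⟩ := Submodule.mem_sup.mp (htop ▸ Submodule.mem_top : v ∈ _)
  refine ⟨⟨b, hb⟩, ?_⟩
  simp only [LinearMap.comp_apply, Submodule.subtype_apply, Submodule.mkQ_apply,
    Submodule.Quotient.eq]
  rw [P.range_d, sub_add_cancel_right]
  exact neg_mem ha

include P in
theorem exists_retraction_H0 (h : Function.Surjective P.d) :
    ∃ ρ : (M₀ × M₁) →ₗ[R] P.H0, ∀ z : P.H0, ρ z = z := by
  have := P.projective₀₁
  obtain ⟨s, hs⟩ := Module.projective_lifting_property P.d LinearMap.id h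
  let g : (M₀ × M₁) →ₗ[R] (M₀ × M₁) := LinearMap.id - s ∘ₗ P.d
  have hmem : ∀ z, g z ∈ P.H0 := fun z => by
    have h2 := LinearMap.congr_fun hs (P.d z)
    simp only [LinearMap.comp_apply, LinearMap.id_apply] at h2
    show P.d (z - s (P.d z)) = 0
    rw [map_sub, h2, sub_self]
  refine ⟨g.codRestrict P.H0 hmem, fun z => Subtype.ext ?_⟩
  simp [g, LinearMap.mem_ker.mp z.2]

/-- If `H¹ = 0` then `H⁰` is projective. -/
theorem projective_H0 (h : Function.Surjective P.d) : Module.Projective R P.H0 := by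
  have := P.frame₀.projective
  have := P.frame₁.projective
  obtain ⟨ρ, hρ⟩ := P.exists_retraction_H0 h
  exact Module.Projective.of_split P.H0.subtype ρ (LinearMap.ext hρ)

/-- If `H¹ = 0` then `H⁰` is finitely generated. -/
theorem finite_H0 (h : Function.Surjective P.d) : Module.Finite R P.H0 := by
  obtain ⟨ρ, hρ⟩ := P.exists_retraction_H0 h
  obtain ⟨L₀, h₀, hL₀⟩ := P.exists_window₀
  obtain ⟨L₁, h₁, hL₁⟩ := P.swap.exists_window₀
  have : Module.Finite R L₀ := Module.Finite.iff_fg.mpr h₀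
  have : Module.Finite R L₁ := Module.Finite.iff_fg.mpr h₁
  refine Module.Finite.of_surjective (ρ ∘ₗ L₀.subtype.prodMap L₁.subtype) fun z => ?_
  have hz : P.r₀ z.1.1 = P.r₁ z.1.2 := by
    have := LinearMap.mem_ker.mp z.2
    rwa [d_apply, sub_eq_zero] at this
  exact ⟨(⟨z.1.1, hL₀ _ _ hz⟩, ⟨z.1.2, hL₁ _ _ hz.symm⟩), hρ z⟩

/-- `H⁰` is contained in a finitely generated submodule. -/
theorem exists_fg_H0_le : ∃ L : Submodule R (M₀ × M₁), L.FG ∧ P.H0 ≤ L := by
  obtain ⟨L₀, h₀, hL₀⟩ := P.exists_window₀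
  obtain ⟨L₁, h₁, hL₁⟩ := P.swap.exists_window₀
  refine ⟨L₀.prod L₁, h₀.prod h₁, fun z hz => ?_⟩
  rw [LinearMap.mem_ker, d_apply, sub_eq_zero] at hz
  exact ⟨hL₀ _ _ hz, hL₁ _ _ hz.symm⟩

end PatchedModule

end Fermat.Agent.Jacobian
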